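import Mathlib

/-!
# Index additivity (helper68, P-S44/S40 block R1, abstract edge lemma in length form, part (i))

For a short exact sequence `0 → N₁ → N₂ → N₃ → 0` of modules with compatible endomorphisms `φᵢ`,
the six-term kernel-cokernel sequence gives the length identity
`ℓ(ker φ₁) + ℓ(ker φ₃) + ℓ(coker φ₂) = ℓ(ker φ₂) + ℓ(coker φ₁) + ℓ(coker φ₃)` in `ℕ∞`
(no finiteness assumption, no subtraction).
-/

set_option autoImplicit false

namespace Fermat.Agent.S40x.Chi.Index

open Function LinearMap

variable {R : Type*} [CommRing R]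

section Lengths

variable {A B C : Type*} [AddCommGroup A] [Module R A] [AddCommGroup B] [Module R B]
  [AddCommGroup C] [Module R C]

/-- rank-nullity for lengths -/
theorem length_eq_ker_add_range (φ : A →ₗ[R] B) :
    Module.length R A = Module.length R (LinearMap.ker φ) + Module.length R (LinearMap.range φ) :=
  Module.length_eq_add_of_exact (LinearMap.ker φ).subtype φ.rangeRestrict
    (Submodule.subtype_injective _) φ.surjective_rangeRestrict
    (by
      rw [LinearMap.exact_iff, LinearMap.ker_rangeRestrict, Submodule.range_subtype])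

/-- for an exact pair, the length of the middle term is the sum of the lengths of the two ranges -/
theorem length_eq_range_add_range {φ : A →ₗ[R] B} {ψ : B →ₗ[R] C} (h : Exact φ ψ) :
    Module.length R B = Module.length R (LinearMap.range φ) + Module.length R (LinearMap.range ψ) := by
  rw [length_eq_ker_add_range ψ, LinearMap.exact_iff.mp h]

theorem length_range_of_injective {φ : A →ₗ[R] B} (h : Injective φ) :
    Module.length R (LinearMap.range φ) = Module.length R A :=
  (LinearEquiv.ofInjective φ h).length_eq.symm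

theorem length_range_of_surjective {φ : A →ₗ[R] B} (h : Surjective φ) :
    Module.length R (LinearMap.range φ) = Module.length R B := by
  rw [LinearMap.range_eq_top.mpr h]
  exact Module.length_top

end Lengths

section SixTerm

variable {K₁ K₂ K₃ C₁ C₂ C₃ : Type*}
  [AddCommGroup K₁] [Module R K₁] [AddCommGroup K₂] [Module R K₂] [AddCommGroup K₃] [Module R K₃]
  [AddCommGroup C₁] [Module R C₁] [AddCommGroup C₂] [Module R C₂] [AddCommGroup C₃] [Module R C₃]

/-- the length identity of a six-term exact sequence `0 → K₁ → K₂ → K₃ → C₁ → C₂ → C₃ → 0` -/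
theorem length_sixTerm {a : K₁ →ₗ[R] K₂} {b : K₂ →ₗ[R] K₃} {d : K₃ →ₗ[R] C₁} {c : C₁ →ₗ[R] C₂}
    {e : C₂ →ₗ[R] C₃} (ha : Injective a) (hab : Exact a b) (hbd : Exact b d) (hdc : Exact d c)
    (hce : Exact c e) (he : Surjective e) :
    Module.length R K₁ + Module.length R K₃ + Module.length R C₂
      = Module.length R K₂ + Module.length R C₁ + Module.length R C₃ := by
  rw [length_eq_range_add_range hab, length_eq_range_add_range hbd, length_eq_range_add_range hdc,
    length_eq_range_add_range hce, ← length_range_of_injective ha, ← length_range_of_surjective he]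
  ring

end SixTerm

section Index

variable {N₁ N₂ N₃ : Type*} [AddCommGroup N₁] [Module R N₁] [AddCommGroup N₂] [Module R N₂]
  [AddCommGroup N₃] [Module R N₃]
  (φ₁ : N₁ →ₗ[R] N₁) (φ₂ : N₂ →ₗ[R] N₂) (φ₃ : N₃ →ₗ[R] N₃)
  (f : N₁ →ₗ[R] N₂) (g : N₂ →ₗ[R] N₃)

/-- **Index additivity** in `ℕ∞`-form. -/
theorem length_ker_coker_of_exact (hf : Injective f) (hg : Surjective g) (hfg : Exact f g)
    (h₁ : f.comp φ₁ = φ₂.comp f) (h₂ : g.comp φ₂ = φ₃.comp g) :
    Module.length R (LinearMap.ker φ₁) + Module.length R (LinearMap.ker φ₃)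
        + Module.length R (N₂ ⧸ LinearMap.range φ₂)
      = Module.length R (LinearMap.ker φ₂) + Module.length R (N₁ ⧸ LinearMap.range φ₁)
        + Module.length R (N₃ ⧸ LinearMap.range φ₃) := by
  -- maps between kernels
  have hk₁ : ∀ x ∈ LinearMap.ker φ₁, f x ∈ LinearMap.ker φ₂ := by
    intro x hx
    rw [LinearMap.mem_ker] at hx ⊢
    have := LinearMap.congr_fun h₁ x
    simp only [LinearMap.comp_apply] at this
    rw [← this, hx, map_zero]
  have hk₂ : ∀ x ∈ LinearMap.ker φ₂, g x ∈ LinearMap.ker φ₃ := by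
    intro x hx
    rw [LinearMap.mem_ker] at hx ⊢
    have := LinearMap.congr_fun h₂ x
    simp only [LinearMap.comp_apply] at this
    rw [← this, hx, map_zero]
  let a : LinearMap.ker φ₁ →ₗ[R] LinearMap.ker φ₂ := f.restrict hk₁
  let b : LinearMap.ker φ₂ →ₗ[R] LinearMap.ker φ₃ := g.restrict hk₂
  -- maps between cokernels
  have hc₁ : LinearMap.range φ₁ ≤ (LinearMap.range φ₂).comap f := by
    rintro _ ⟨x, rfl⟩
    refine ⟨f x, ?_⟩
    have := LinearMap.congr_fun h₁ x
    simp only [LinearMap.comp_apply] at this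
    exact this.symm
  have hc₂ : LinearMap.range φ₂ ≤ (LinearMap.range φ₃).comap g := by
    rintro _ ⟨x, rfl⟩
    refine ⟨g x, ?_⟩
    have := LinearMap.congr_fun h₂ x
    simp only [LinearMap.comp_apply] at this
    exact this.symm
  let c : (N₁ ⧸ LinearMap.range φ₁) →ₗ[R] (N₂ ⧸ LinearMap.range φ₂) :=
    Submodule.mapQ _ _ f hc₁
  let e : (N₂ ⧸ LinearMap.range φ₂) →ₗ[R] (N₃ ⧸ LinearMap.range φ₃) :=
    Submodule.mapQ _ _ g hc₂
  -- the connecting homomorphism
  let δ : LinearMap.ker φ₃ →ₗ[R] (N₁ ⧸ LinearMap.range φ₁) :=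
    SnakeLemma.δ' φ₁ φ₂ φ₃ f g hfg f g hfg h₁ h₂ (LinearMap.ker φ₃).subtype
      (LinearMap.exact_subtype_ker_map φ₃) (LinearMap.range φ₁).mkQ
      (LinearMap.exact_map_mkQ_range φ₁) hg hf
  have hbd : Exact b δ :=
    SnakeLemma.exact_δ'_right φ₁ φ₂ φ₃ f g hfg f g hfg h₁ h₂ (LinearMap.ker φ₂).subtype
      (LinearMap.exact_subtype_ker_map φ₂) (LinearMap.ker φ₃).subtype
      (LinearMap.exact_subtype_ker_map φ₃) (LinearMap.range φ₁).mkQ
      (LinearMap.exact_map_mkQ_range φ₁) hg hf b (by ext x; rfl) (Submodule.subtype_injective _)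
  have hdc : Exact δ c :=
    SnakeLemma.exact_δ'_left φ₁ φ₂ φ₃ f g hfg f g hfg h₁ h₂ (LinearMap.ker φ₃).subtype
      (LinearMap.exact_subtype_ker_map φ₃) (LinearMap.range φ₁).mkQ
      (LinearMap.exact_map_mkQ_range φ₁) (LinearMap.range φ₂).mkQ
      (LinearMap.exact_map_mkQ_range φ₂) hg hf c (by ext x; rfl) (Submodule.mkQ_surjective _)
  have ha : Injective a := by
    intro x y hxy
    apply Subtype.ext
    apply hf
    exact congrArg Subtype.val hxy
  have hab : Exact a b := by
    intro y
    constructor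
    · intro hy
      have hy' : g (y : N₂) = 0 := congrArg Subtype.val hy
      obtain ⟨x, hx⟩ := (hfg (y : N₂)).mp hy'
      have hxk : x ∈ LinearMap.ker φ₁ := by
        rw [LinearMap.mem_ker]
        apply hf
        have := LinearMap.congr_fun h₁ x
        simp only [LinearMap.comp_apply] at this
        rw [this, hx, map_zero]
        exact LinearMap.mem_ker.mp y.2
      exact ⟨⟨x, hxk⟩, Subtype.ext hx⟩
    · rintro ⟨x, rfl⟩
      apply Subtype.ext
      exact (hfg _).mpr ⟨x, rfl⟩
  have he : Surjective e := by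
    intro z
    obtain ⟨z, rfl⟩ := Submodule.mkQ_surjective _ z
    obtain ⟨y, rfl⟩ := hg z
    exact ⟨Submodule.Quotient.mk y, rfl⟩
  have hce : Exact c e := by
    intro y
    obtain ⟨y, rfl⟩ := Submodule.mkQ_surjective _ y
    constructor
    · intro hy
      have hy' : g y ∈ LinearMap.range φ₃ := by
        have : (LinearMap.range φ₃).mkQ (g y) = 0 := hy
        simpa using this
      obtain ⟨w, hw⟩ := hy'
      obtain ⟨y', rfl⟩ := hg w
      have h0 : g (y - φ₂ y') = 0 := by
        have := LinearMap.congr_fun h₂ y'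
        simp only [LinearMap.comp_apply] at this
        rw [map_sub, this, hw, sub_self]
      obtain ⟨x, hx⟩ := (hfg _).mp h0
      refine ⟨Submodule.Quotient.mk x, ?_⟩
      show Submodule.Quotient.mk (f x) = Submodule.Quotient.mk y
      rw [hx, Submodule.Quotient.eq]
      refine ⟨-y', ?_⟩
      rw [map_neg]; abel
    · rintro ⟨x, hx⟩
      obtain ⟨x, rfl⟩ := Submodule.mkQ_surjective _ x
      rw [← hx]
      show Submodule.Quotient.mk (g (f x)) = 0
      rw [(hfg _).mpr ⟨x, rfl⟩]
      rfl
  exact length_sixTerm ha hab hbd hdc hce he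

/-- sub-additivity of the kernel length along a short exact sequence -/
theorem length_ker_le_of_exact (hf : Injective f) (hfg : Exact f g)
    (h₁ : f.comp φ₁ = φ₂.comp f) (h₂ : g.comp φ₂ = φ₃.comp g) :
    Module.length R (LinearMap.ker φ₂)
      ≤ Module.length R (LinearMap.ker φ₁) + Module.length R (LinearMap.ker φ₃) := by
  have hk₁ : ∀ x ∈ LinearMap.ker φ₁, f x ∈ LinearMap.ker φ₂ := by
    intro x hx
    rw [LinearMap.mem_ker] at hx ⊢
    have := LinearMap.congr_fun h₁ x
    simp only [LinearMap.comp_apply] at this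
    rw [← this, hx, map_zero]
  have hk₂ : ∀ x ∈ LinearMap.ker φ₂, g x ∈ LinearMap.ker φ₃ := by
    intro x hx
    rw [LinearMap.mem_ker] at hx ⊢
    have := LinearMap.congr_fun h₂ x
    simp only [LinearMap.comp_apply] at this
    rw [← this, hx, map_zero]
  let a : LinearMap.ker φ₁ →ₗ[R] LinearMap.ker φ₂ := f.restrict hk₁
  let b : LinearMap.ker φ₂ →ₗ[R] LinearMap.ker φ₃ := g.restrict hk₂
  have hab : Exact a b := by
    intro y
    constructor
    · intro hy
      have hy' : g (y : N₂) = 0 := congrArg Subtype.val hy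
      obtain ⟨x, hx⟩ := (hfg (y : N₂)).mp hy'
      have hxk : x ∈ LinearMap.ker φ₁ := by
        rw [LinearMap.mem_ker]
        apply hf
        have := LinearMap.congr_fun h₁ x
        simp only [LinearMap.comp_apply] at this
        rw [this, hx, map_zero]
        exact LinearMap.mem_ker.mp y.2
      exact ⟨⟨x, hxk⟩, Subtype.ext hx⟩
    · rintro ⟨x, rfl⟩
      apply Subtype.ext
      exact (hfg _).mpr ⟨x, rfl⟩
  rw [length_eq_range_add_range hab]
  refine add_le_add ?_ ?_
  · exact Module.length_le_of_surjective a.rangeRestrict a.surjective_rangeRestrict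
  · exact Module.length_le_of_injective (LinearMap.range b).subtype (Submodule.subtype_injective _)

end Index

end Fermat.Agent.S40x.Chi.Index
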