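import Mathlib
import Fermat.Agent.S40x.Chi.Index

/-!
# The Euler characteristic `χ_g` and the associativity formula (helper68, abstract edge lemma,
length form, part (ii))

For a Noetherian ring `R`, `g : R` and a finitely generated `R`-module `M` put
`kerLen g M = ℓ(M[g])`, `cokLen g M = ℓ(M / gM)`, `locLen q M = ℓ_{R_q}(M_q)`.
If `T` is a finite set of pairwise incomparable non-maximal primes not containing `g` such that
every prime in the support of `M` is maximal or in `T`, then `ℓ(M[g]) < ∞` and
`ℓ(M/gM) = ℓ(M[g]) + ∑_{q ∈ T} ℓ_{R_q}(M_q) · ℓ(R/(q + (g)))`.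
-/

set_option autoImplicit false

universe u v

namespace Fermat.Agent.S40x.Chi.Assoc

open Function

variable {R : Type u} [CommRing R]

section Defs

variable (g : R) (M : Type v) [AddCommGroup M] [Module R M]

/-- length of the `g`-torsion of `M` -/
noncomputable def kerLen : ℕ∞ := Module.length R (LinearMap.ker (LinearMap.lsmul R M g))

/-- length of `M / gM` -/
noncomputable def cokLen : ℕ∞ := Module.length R (M ⧸ LinearMap.range (LinearMap.lsmul R M g))

/-- length of the localisation of `M` at the prime `q` over the local ring at `q` -/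
noncomputable def locLen (q : PrimeSpectrum R) : ℕ∞ :=
  Module.length (Localization.AtPrime q.asIdeal) (LocalizedModule q.asIdeal.primeCompl M)

end Defs

section Exact

variable (g : R) {N₁ N₂ N₃ : Type v} [AddCommGroup N₁] [Module R N₁] [AddCommGroup N₂] [Module R N₂]
  [AddCommGroup N₃] [Module R N₃] (f : N₁ →ₗ[R] N₂) (h : N₂ →ₗ[R] N₃)

theorem kerLen_cokLen_of_exact (hf : Injective f) (hh : Surjective h) (hfh : Exact f h) :
    kerLen g N₁ + kerLen g N₃ + cokLen g N₂ = kerLen g N₂ + cokLen g N₁ + cokLen g N₃ :=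
  Index.length_ker_coker_of_exact _ _ _ f h hf hh hfh
    (by ext x; simp) (by ext x; simp)

theorem kerLen_le_of_exact (hf : Injective f) (hfh : Exact f h) :
    kerLen g N₂ ≤ kerLen g N₁ + kerLen g N₃ :=
  Index.length_ker_le_of_exact _ _ _ f h hf hfh (by ext x; simp) (by ext x; simp)

theorem locLen_of_exact (q : PrimeSpectrum R) (hf : Injective f) (hh : Surjective h)
    (hfh : Exact f h) : locLen N₂ q = locLen N₁ q + locLen N₃ q := by
  refine Module.length_eq_add_of_exact (LocalizedModule.map q.asIdeal.primeCompl f)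
    (LocalizedModule.map q.asIdeal.primeCompl h)
    (LocalizedModule.map_injective _ f hf) (LocalizedModule.map_surjective _ h hh) ?_
  have := LocalizedModule.map_exact q.asIdeal.primeCompl f h hfh
  intro y
  exact this y

end Exact

section Congr

variable (g : R) {M : Type v} [AddCommGroup M] [Module R M] {M' : Type*} [AddCommGroup M']
  [Module R M']

theorem kerLen_congr (e : M ≃ₗ[R] M') : kerLen g M = kerLen g M' := by
  have hk : LinearMap.ker (LinearMap.lsmul R M g)
      = (LinearMap.ker (LinearMap.lsmul R M' g)).comap (e : M →ₗ[R] M') := by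
    ext x
    simp only [LinearMap.mem_ker, LinearMap.lsmul_apply, Submodule.mem_comap, LinearEquiv.coe_coe]
    rw [← map_smul, LinearEquiv.map_eq_zero_iff]
  unfold kerLen
  rw [hk]
  exact (LinearEquiv.ofSubmodule' e _).length_eq

theorem cokLen_congr (e : M ≃ₗ[R] M') : cokLen g M = cokLen g M' := by
  unfold cokLen
  refine (Submodule.Quotient.equiv _ _ e ?_).length_eq
  ext y
  simp only [Submodule.mem_map, LinearMap.mem_range, LinearMap.lsmul_apply, LinearEquiv.coe_coe]
  constructor
  · rintro ⟨_, ⟨x, rfl⟩, rfl⟩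
    exact ⟨e x, by rw [map_smul]⟩
  · rintro ⟨x, rfl⟩
    exact ⟨g • e.symm x, ⟨e.symm x, rfl⟩, by rw [map_smul, LinearEquiv.apply_symm_apply]⟩

theorem locLen_congr (e : M ≃ₗ[R] M') (q : PrimeSpectrum R) : locLen M q = locLen M' q :=
  (IsLocalizedModule.mapEquiv q.asIdeal.primeCompl
    (LocalizedModule.mkLinearMap q.asIdeal.primeCompl M)
    (LocalizedModule.mkLinearMap q.asIdeal.primeCompl M')
    (Localization.AtPrime q.asIdeal) e).length_eq

end Congr

section Basic

variable (g : R) (M : Type v) [AddCommGroup M] [Module R M]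

theorem kerLen_le_length : kerLen g M ≤ Module.length R M :=
  Module.length_le_of_injective (Submodule.subtype _) (Submodule.subtype_injective _)

theorem kerLen_eq_zero_of_subsingleton [Subsingleton M] : kerLen g M = 0 :=
  Module.length_eq_zero_iff.mpr inferInstance

theorem cokLen_eq_zero_of_subsingleton [Subsingleton M] : cokLen g M = 0 :=
  Module.length_eq_zero_iff.mpr inferInstance

theorem locLen_eq_zero_of_subsingleton [Subsingleton M] (q : PrimeSpectrum R) :
    locLen M q = 0 :=
  Module.length_eq_zero_iff.mpr inferInstance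

/-- on a module of finite length, kernel and cokernel of `g` have the same length -/
theorem cokLen_eq_kerLen_of_length_ne_top (h : Module.length R M ≠ ⊤) :
    cokLen g M = kerLen g M := by
  have h1 := Index.length_eq_ker_add_range (LinearMap.lsmul R M g)
  have h2 : Module.length R M = Module.length R (LinearMap.range (LinearMap.lsmul R M g))
      + Module.length R (M ⧸ LinearMap.range (LinearMap.lsmul R M g)) :=
    Module.length_eq_add_of_exact (Submodule.subtype _) (Submodule.mkQ _)
      (Submodule.subtype_injective _) (Submodule.mkQ_surjective _)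
      (LinearMap.exact_subtype_mkQ _)
  have hr : Module.length R (LinearMap.range (LinearMap.lsmul R M g)) ≠ ⊤ := by
    intro htop
    rw [htop, top_add] at h2
    exact h h2
  unfold cokLen kerLen
  rw [h1, add_comm] at h2
  exact (ENat.add_right_injective_of_ne_top hr h2).symm

end Basic

section Quot

variable (g : R) (I : Ideal R)

theorem cokLen_quot : cokLen g (R ⧸ I) = Module.length R (R ⧸ (I ⊔ Ideal.span {g})) := by
  unfold cokLen
  let π : R →ₗ[R] ((R ⧸ I) ⧸ LinearMap.range (LinearMap.lsmul R (R ⧸ I) g)) :=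
    (Submodule.mkQ _).comp (Submodule.mkQ I)
  have hπ : Surjective π :=
    (Submodule.mkQ_surjective _).comp (Submodule.mkQ_surjective I)
  have hker : LinearMap.ker π = I ⊔ Ideal.span {g} := by
    ext x
    simp only [π, LinearMap.mem_ker, LinearMap.comp_apply, Submodule.mkQ_apply,
      Submodule.Quotient.mk_eq_zero, LinearMap.mem_range, LinearMap.lsmul_apply]
    constructor
    · rintro ⟨y, hy⟩
      obtain ⟨y, rfl⟩ := Submodule.mkQ_surjective I y
      have : Submodule.Quotient.mk (p := I) (g • y) = Submodule.Quotient.mk x := hy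
      rw [Submodule.Quotient.eq] at this
      have hx : x = -(g • y - x) + y * g := by
        rw [smul_eq_mul]; ring
      rw [hx]
      exact Submodule.add_mem_sup (I.neg_mem this) (Ideal.mem_span_singleton'.mpr ⟨y, rfl⟩)
    · intro hx
      obtain ⟨a, ha, b, hb, rfl⟩ := Submodule.mem_sup.mp hx
      obtain ⟨c, rfl⟩ := Ideal.mem_span_singleton'.mp hb
      refine ⟨Submodule.Quotient.mk c, ?_⟩
      rw [← Submodule.Quotient.mk_smul, Submodule.Quotient.eq]
      have : g • c - (a + c * g) = -a := by rw [smul_eq_mul]; ring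
      rw [this]
      exact I.neg_mem ha
  exact ((π.quotKerEquivOfSurjective hπ).symm.trans (Submodule.quotEquivOfEq _ _ hker)).length_eq

theorem kerLen_quot_of_notMem [I.IsPrime] (hg : g ∉ I) : kerLen g (R ⧸ I) = 0 := by
  unfold kerLen
  rw [Module.length_eq_zero_iff]
  refine ⟨fun x y => Subtype.ext ?_⟩
  have h0 : ∀ z : LinearMap.ker (LinearMap.lsmul R (R ⧸ I) g), (z : R ⧸ I) = 0 := by
    intro z
    have hz := LinearMap.mem_ker.mp z.2
    obtain ⟨r, hr⟩ := Ideal.Quotient.mk_surjective (z : R ⧸ I)
    rw [LinearMap.lsmul_apply, ← hr, Algebra.smul_def, Ideal.Quotient.algebraMap_eq, ← map_mul,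
      Ideal.Quotient.eq_zero_iff_mem] at hz
    rw [← hr, Ideal.Quotient.eq_zero_iff_mem]
    exact (Ideal.IsPrime.mem_or_mem inferInstance hz).resolve_left hg
  rw [h0 x, h0 y]

theorem length_quot_of_isMaximal [hI : I.IsMaximal] : Module.length R (R ⧸ I) = 1 := by
  have : IsSimpleModule R (R ⧸ I) := isSimpleModule_iff_isCoatom.mpr hI.out
  exact Module.length_eq_one R (R ⧸ I)

end Quot

section LocQuot

theorem locLen_quot_of_not_le (I : Ideal R) (q : PrimeSpectrum R) (h : ¬ I ≤ q.asIdeal) :
    locLen (R ⧸ I) q = 0 := by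
  unfold locLen
  rw [Module.length_eq_zero_iff, LocalizedModule.subsingleton_iff]
  obtain ⟨s, hsI, hsq⟩ := SetLike.not_le_iff_exists.mp h
  intro m
  refine ⟨s, hsq, ?_⟩
  obtain ⟨x, rfl⟩ := Ideal.Quotient.mk_surjective m
  rw [Algebra.smul_def, Ideal.Quotient.algebraMap_eq, ← map_mul, Ideal.Quotient.eq_zero_iff_mem]
  exact I.mul_mem_right _ hsI

theorem locLen_quot_self (q : PrimeSpectrum R) : locLen (R ⧸ q.asIdeal) q = 1 := by
  unfold locLen
  have e := IsLocalizedModule.mapEquiv q.asIdeal.primeCompl
    (LocalizedModule.mkLinearMap q.asIdeal.primeCompl (R ⧸ q.asIdeal))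
    (Submodule.toLocalizedQuotient' (Localization.AtPrime q.asIdeal) q.asIdeal.primeCompl
      (Algebra.linearMap R (Localization.AtPrime q.asIdeal)) q.asIdeal)
    (Localization.AtPrime q.asIdeal) (LinearEquiv.refl R _)
  rw [e.length_eq]
  have hmax : Submodule.localized' (Localization.AtPrime q.asIdeal) q.asIdeal.primeCompl
      (Algebra.linearMap R (Localization.AtPrime q.asIdeal)) q.asIdeal
        = IsLocalRing.maximalIdeal (Localization.AtPrime q.asIdeal) := by
    rw [Ideal.localized'_eq_map, Localization.AtPrime.map_eq_maximalIdeal]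
  rw [(Submodule.quotEquivOfEq _ _ hmax).length_eq]
  exact length_quot_of_isMaximal _

end LocQuot

section Main

/-- the weight `ℓ(R/(q + (g)))` of a prime `q` -/
noncomputable def wt (g : R) (q : PrimeSpectrum R) : ℕ∞ :=
  Module.length R (R ⧸ (q.asIdeal ⊔ Ideal.span {g}))

/-- every prime in the support of `M` is maximal or belongs to `T` -/
def SuppIn (T : Finset (PrimeSpectrum R)) (M : Type v) [AddCommGroup M] [Module R M] : Prop :=
  ∀ P : PrimeSpectrum R, Module.annihilator R M ≤ P.asIdeal → P ∈ T ∨ P.asIdeal.IsMaximal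

variable [IsNoetherianRing R] (g : R) (T : Finset (PrimeSpectrum R))

/-- **Associativity formula** for the Euler characteristic of `g`. -/
theorem assoc_formula (hT₁ : ∀ q ∈ T, g ∉ q.asIdeal) (hT₂ : ∀ q ∈ T, ¬ q.asIdeal.IsMaximal)
    (hT₃ : ∀ q ∈ T, ∀ q' ∈ T, q.asIdeal ≤ q'.asIdeal → q = q')
    (M : Type v) [AddCommGroup M] [Module R M] [hfin : Module.Finite R M] (hM : SuppIn T M) :
    kerLen g M ≠ ⊤ ∧ cokLen g M = kerLen g M + ∑ q ∈ T, locLen M q * wt g q := by
  classical
  revert hM
  induction hfin using IsNoetherianRing.induction_on_isQuotientEquivQuotientPrime with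
  | subsingleton N =>
    intro _
    rw [kerLen_eq_zero_of_subsingleton, cokLen_eq_zero_of_subsingleton]
    refine ⟨by simp, ?_⟩
    rw [zero_add]
    symm
    apply Finset.sum_eq_zero
    intro q _
    rw [locLen_eq_zero_of_subsingleton, zero_mul]
  | quotient N p e =>
    intro hM
    have hann : Module.annihilator R N ≤ p.asIdeal := by
      rw [e.annihilator_eq, Ideal.annihilator_quotient]
    rw [kerLen_congr g e, cokLen_congr g e]
    have hloc : ∀ q, locLen N q = locLen (R ⧸ p.asIdeal) q := fun q => locLen_congr e q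
    rcases hM p hann with hpT | hpmax
    · rw [kerLen_quot_of_notMem g p.asIdeal (hT₁ p hpT), cokLen_quot]
      refine ⟨by simp, ?_⟩
      rw [zero_add, Finset.sum_eq_single p]
      · rw [hloc, locLen_quot_self, one_mul]; rfl
      · intro q hq hqp
        rw [hloc, locLen_quot_of_not_le, zero_mul]
        intro hle
        exact hqp (hT₃ p hpT q hq hle).symm
      · intro h; exact absurd hpT h
    · have hlen : Module.length R (R ⧸ p.asIdeal) = 1 := length_quot_of_isMaximal p.asIdeal
      have hne : Module.length R (R ⧸ p.asIdeal) ≠ ⊤ := by rw [hlen]; simp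
      refine ⟨ne_top_of_le_ne_top hne (kerLen_le_length g _), ?_⟩
      rw [cokLen_eq_kerLen_of_length_ne_top g _ hne]
      have hz : ∑ q ∈ T, locLen N q * wt g q = 0 := by
        apply Finset.sum_eq_zero
        intro q hq
        rw [hloc, locLen_quot_of_not_le, zero_mul]
        intro hle
        have := hpmax.eq_of_le q.isPrime.ne_top hle
        exact hT₂ q hq (this ▸ hpmax)
      rw [hz, add_zero]
  | exact N₁ N₂ N₃ f h hf hh hfh ih₁ ih₃ =>
    intro hM
    have hM₁ : SuppIn T N₁ := fun P hP =>
      hM P ((LinearMap.annihilator_le_of_injective f hf).trans hP)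
    have hM₃ : SuppIn T N₃ := fun P hP =>
      hM P ((LinearMap.annihilator_le_of_surjective h hh).trans hP)
    obtain ⟨hk₁, hc₁⟩ := ih₁ hM₁
    obtain ⟨hk₃, hc₃⟩ := ih₃ hM₃
    have hk₂ : kerLen g N₂ ≠ ⊤ := by
      refine ne_top_of_le_ne_top ?_ (kerLen_le_of_exact g f h hf hfh)
      exact WithTop.add_ne_top.mpr ⟨hk₁, hk₃⟩
    refine ⟨hk₂, ?_⟩
    have hsum : ∑ q ∈ T, locLen N₂ q * wt g q
        = ∑ q ∈ T, locLen N₁ q * wt g q + ∑ q ∈ T, locLen N₃ q * wt g q := by
      rw [← Finset.sum_add_distrib]
      apply Finset.sum_congr rfl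
      intro q _
      rw [locLen_of_exact f h q hf hh hfh, add_mul]
    have key := kerLen_cokLen_of_exact g f h hf hh hfh
    rw [hc₁, hc₃] at key
    have hne : kerLen g N₁ + kerLen g N₃ ≠ ⊤ := WithTop.add_ne_top.mpr ⟨hk₁, hk₃⟩
    apply ENat.add_right_injective_of_ne_top hne
    show kerLen g N₁ + kerLen g N₃ + cokLen g N₂ = kerLen g N₁ + kerLen g N₃ + _
    rw [key, hsum]
    ring

end Main

end Fermat.Agent.S40x.Chi.Assoc
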