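import Mathlib
import Fermat.Agent.S40x.Chi.Assoc

/-!
# Symmetry of the torsion term (helper68, abstract edge lemma, length form, part (iii))

For non-zero-divisors `a g` of a commutative ring: `(R/a)[g] ≅ ((a) ∩ (g))/(ag) ≅ (R/g)[a]`,
hence `kerLen g (R ⧸ (a)) = kerLen a (R ⧸ (g))`.
-/

set_option autoImplicit false

universe u

namespace Fermat.Agent.S40x.Chi.Symm

open Function Assoc

variable {R : Type u} [CommRing R]

/-- `(R/a)[g]` has the same length as the image of `W = (a) ∩ (g)` in `R/(d)`, `d = g a`. -/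
theorem kerLen_eq_length_inf (a g d : R) (hd : d = g * a) (hg : g ∈ nonZeroDivisors R)
    (W : Ideal R) (hW : W = Ideal.span {a} ⊓ Ideal.span {g}) :
    kerLen g (R ⧸ Ideal.span {a})
      = Module.length R (Submodule.map (Submodule.mkQ (Ideal.span {d})) W) := by
  have hle : Ideal.span {a} ≤ Submodule.comap (LinearMap.lsmul R R g) (Ideal.span {d}) := by
    intro x hx
    obtain ⟨t, rfl⟩ := Ideal.mem_span_singleton'.mp hx
    rw [Submodule.mem_comap, LinearMap.lsmul_apply, smul_eq_mul, hd]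
    exact Ideal.mem_span_singleton'.mpr ⟨t, by ring⟩
  let θ : (R ⧸ Ideal.span {a}) →ₗ[R] (R ⧸ Ideal.span {d}) :=
    Submodule.mapQ (Ideal.span {a}) (Ideal.span {d}) (LinearMap.lsmul R R g) hle
  have hθ : ∀ x : R, θ (Submodule.Quotient.mk x) = Submodule.Quotient.mk (g * x) := fun x => rfl
  have hinj : Injective θ := by
    rw [← LinearMap.ker_eq_bot, Submodule.eq_bot_iff]
    intro x hx
    obtain ⟨x, rfl⟩ := Submodule.mkQ_surjective _ x
    rw [LinearMap.mem_ker, Submodule.mkQ_apply, hθ, Submodule.Quotient.mk_eq_zero] at hx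
    obtain ⟨t, ht⟩ := Ideal.mem_span_singleton'.mp hx
    rw [Submodule.mkQ_apply, Submodule.Quotient.mk_eq_zero]
    refine Ideal.mem_span_singleton'.mpr ⟨t, ?_⟩
    have h0 : g * (t * a - x) = 0 := by
      rw [mul_sub, ← ht, hd]; ring
    exact sub_eq_zero.mp ((mem_nonZeroDivisors_iff.mp hg).1 _ h0)
  unfold kerLen
  rw [(Submodule.equivMapOfInjective θ hinj _).length_eq]
  suffices hmap : Submodule.map θ (LinearMap.ker (LinearMap.lsmul R (R ⧸ Ideal.span {a}) g))
      = Submodule.map (Submodule.mkQ (Ideal.span {d})) W by rw [hmap]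
  ext y
  simp only [Submodule.mem_map, LinearMap.mem_ker, LinearMap.lsmul_apply]
  constructor
  · rintro ⟨x, hx, rfl⟩
    obtain ⟨x, rfl⟩ := Submodule.mkQ_surjective _ x
    rw [Submodule.mkQ_apply, ← Submodule.Quotient.mk_smul, Submodule.Quotient.mk_eq_zero,
      smul_eq_mul] at hx
    refine ⟨g * x, ?_, ?_⟩
    · rw [hW]
      exact ⟨hx, Ideal.mem_span_singleton'.mpr ⟨x, mul_comm _ _⟩⟩
    · rw [Submodule.mkQ_apply, Submodule.mkQ_apply, hθ]
  · rintro ⟨w, hw, rfl⟩
    rw [hW] at hw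
    obtain ⟨x, rfl⟩ := Ideal.mem_span_singleton'.mp hw.2
    refine ⟨Submodule.Quotient.mk x, ?_, ?_⟩
    · rw [← Submodule.Quotient.mk_smul, Submodule.Quotient.mk_eq_zero, smul_eq_mul, mul_comm]
      exact hw.1
    · rw [hθ, Submodule.mkQ_apply, mul_comm]

/-- **Symmetry** of the torsion term of the intersection number. -/
theorem kerLen_symm (a g : R) (ha : a ∈ nonZeroDivisors R) (hg : g ∈ nonZeroDivisors R) :
    kerLen g (R ⧸ Ideal.span {a}) = kerLen a (R ⧸ Ideal.span {g}) := by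
  rw [kerLen_eq_length_inf a g (g * a) rfl hg _ rfl,
    kerLen_eq_length_inf g a (g * a) (mul_comm g a) ha _ (inf_comm _ _)]

end Fermat.Agent.S40x.Chi.Symm
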