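import Mathlib
import Fermat.Agent.S40x.Chi.Symm

/-!
# Reciprocity for intersection numbers (helper68, abstract edge lemma, length form, part (iv))

`∑_{q ∈ T_a} ord_q(a) · ℓ(R/(q + (b))) = ∑_{q ∈ T_b} ord_q(b) · ℓ(R/(q + (a)))`
for non-zero-divisors `a b` of a Noetherian ring, `T_a` (resp. `T_b`) the non-maximal primes
containing `a` (resp. `b`), assumed pairwise incomparable and not containing `b` (resp. `a`).
-/

set_option autoImplicit false

universe u

namespace Fermat.Agent.S40x.Chi.Recip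

open Function Assoc Symm

variable {R : Type u} [CommRing R]

/-- the localised length of `R/(x)` at `q` is the order of vanishing of `x` in `R_q` -/
theorem locLen_quot_span_singleton (x : R) (q : PrimeSpectrum R) :
    locLen (R ⧸ Ideal.span {x}) q
      = Ring.ord (Localization.AtPrime q.asIdeal)
          (algebraMap R (Localization.AtPrime q.asIdeal) x) := by
  unfold locLen Ring.ord
  have e := IsLocalizedModule.mapEquiv q.asIdeal.primeCompl
    (LocalizedModule.mkLinearMap q.asIdeal.primeCompl (R ⧸ Ideal.span {x}))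
    (Submodule.toLocalizedQuotient' (Localization.AtPrime q.asIdeal) q.asIdeal.primeCompl
      (Algebra.linearMap R (Localization.AtPrime q.asIdeal)) (Ideal.span {x}))
    (Localization.AtPrime q.asIdeal) (LinearEquiv.refl R _)
  rw [e.length_eq]
  have hspan : Submodule.localized' (Localization.AtPrime q.asIdeal) q.asIdeal.primeCompl
      (Algebra.linearMap R (Localization.AtPrime q.asIdeal)) (Ideal.span {x})
        = Ideal.span {algebraMap R (Localization.AtPrime q.asIdeal) x} := by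
    rw [Ideal.localized'_eq_map, Ideal.map_span, Set.image_singleton]
  exact (Submodule.quotEquivOfEq _ _ hspan).length_eq

/-- the weight `ℓ_R(R/(q + (x)))` is the order of vanishing of `x` in `R/q` -/
theorem wt_eq_ord (x : R) (q : PrimeSpectrum R) :
    wt x q = Ring.ord (R ⧸ q.asIdeal) (Ideal.Quotient.mk q.asIdeal x) := by
  unfold wt Ring.ord
  have hspan : Ideal.span {Ideal.Quotient.mk q.asIdeal x}
      = (Ideal.span {x}).map (Ideal.Quotient.mkₐ R q.asIdeal) := by
    rw [Ideal.map_span, Set.image_singleton]; rfl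
  rw [hspan, ← Module.length_eq_of_surjective (S := R) (R := R ⧸ q.asIdeal)
    Ideal.Quotient.mk_surjective]
  exact (DoubleQuot.quotQuotEquivQuotSupₐ R q.asIdeal (Ideal.span {x})).toLinearEquiv.length_eq.symm

theorem suppIn_quot_span_singleton (a : R) (T : Finset (PrimeSpectrum R))
    (h : ∀ P : PrimeSpectrum R, a ∈ P.asIdeal → P ∈ T ∨ P.asIdeal.IsMaximal) :
    SuppIn T (R ⧸ Ideal.span {a}) := by
  intro P hP
  rw [Ideal.annihilator_quotient] at hP
  exact h P (hP (Ideal.mem_span_singleton_self a))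

variable [IsNoetherianRing R]

/-- **Reciprocity**: the intersection number of `a` and `b` computed along `a` and along `b`. -/
theorem reciprocity (a b : R) (ha : a ∈ nonZeroDivisors R) (hb : b ∈ nonZeroDivisors R)
    (Ta Tb : Finset (PrimeSpectrum R))
    (hTa₁ : ∀ q ∈ Ta, b ∉ q.asIdeal) (hTa₂ : ∀ q ∈ Ta, ¬ q.asIdeal.IsMaximal)
    (hTa₃ : ∀ q ∈ Ta, ∀ q' ∈ Ta, q.asIdeal ≤ q'.asIdeal → q = q')
    (hTa₄ : ∀ P : PrimeSpectrum R, a ∈ P.asIdeal → P ∈ Ta ∨ P.asIdeal.IsMaximal)
    (hTb₁ : ∀ q ∈ Tb, a ∉ q.asIdeal) (hTb₂ : ∀ q ∈ Tb, ¬ q.asIdeal.IsMaximal)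
    (hTb₃ : ∀ q ∈ Tb, ∀ q' ∈ Tb, q.asIdeal ≤ q'.asIdeal → q = q')
    (hTb₄ : ∀ P : PrimeSpectrum R, b ∈ P.asIdeal → P ∈ Tb ∨ P.asIdeal.IsMaximal) :
    ∑ q ∈ Ta, Ring.ord (Localization.AtPrime q.asIdeal)
        (algebraMap R (Localization.AtPrime q.asIdeal) a) * wt b q
      = ∑ q ∈ Tb, Ring.ord (Localization.AtPrime q.asIdeal)
        (algebraMap R (Localization.AtPrime q.asIdeal) b) * wt a q := by
  obtain ⟨hk, h₁⟩ := assoc_formula b Ta hTa₁ hTa₂ hTa₃ (R ⧸ Ideal.span {a})
    (suppIn_quot_span_singleton a Ta hTa₄)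
  obtain ⟨-, h₂⟩ := assoc_formula a Tb hTb₁ hTb₂ hTb₃ (R ⧸ Ideal.span {b})
    (suppIn_quot_span_singleton b Tb hTb₄)
  rw [cokLen_quot] at h₁ h₂
  rw [sup_comm, h₁, kerLen_symm b a hb ha] at h₂
  have h₃ := ENat.add_right_injective_of_ne_top hk h₂
  simp only [locLen_quot_span_singleton] at h₃
  exact h₃

end Fermat.Agent.S40x.Chi.Recip
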