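import Mathlib
import Fermat.Agent.S40x.Chi.Recip

/-!
# The abstract edge lemma in length form, any thickness exponent `e` (helper68; helper73's
BLOCK A of note 2546 / (E-c) of note 2576)

`R` a Noetherian domain, `w z z' ε : R`, `z z' = w ^ e ε`, `ε` a unit, `P = (z', w)`, `P' = (z, w)`
non-maximal primes, every prime above `P` is `P` or maximal, `ord_P(z') = e`, `ℓ(R/(P' + (z'))) = 1`.
For `x ∉ P`, `x ≠ 0`, and a finite set `T` of ("horizontal") primes, not containing `w`, containing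
all non-maximal primes through `x` other than `P'`:

`e · ord_{R/P}(x mod P) = ord_{P'}(x) + ∑_{q ∈ T} ord_q(x) · ℓ(R/(q + (z')))`.
-/

set_option autoImplicit false

universe u

namespace Fermat.Agent.S40x.Chi.Edge

open Function Assoc Symm Recip

variable {R : Type u} [CommRing R] [IsDomain R] [IsNoetherianRing R]

/-- **Abstract edge lemma, length form** (ENat-valued). -/
theorem edge_formula (w z z' ε : R) (e : ℕ) (hε : IsUnit ε) (hzz : z * z' = w ^ e * ε)
    (hz'0 : z' ≠ 0) (P P' : PrimeSpectrum R)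
    (hP : P.asIdeal = Ideal.span {z', w}) (hwP' : w ∈ P'.asIdeal) (hz'P' : z' ∉ P'.asIdeal)
    (hPnm : ¬ P.asIdeal.IsMaximal) (hP'nm : ¬ P'.asIdeal.IsMaximal)
    (hPdim : ∀ Q : PrimeSpectrum R, P.asIdeal ≤ Q.asIdeal → Q = P ∨ Q.asIdeal.IsMaximal)
    (heP : Ring.ord (Localization.AtPrime P.asIdeal)
      (algebraMap R (Localization.AtPrime P.asIdeal) z') = e)
    (hwt' : wt z' P' = 1)
    (T : Finset (PrimeSpectrum R)) (hTw : ∀ q ∈ T, w ∉ q.asIdeal)
    (hTnm : ∀ q ∈ T, ¬ q.asIdeal.IsMaximal) (hTP' : ∀ q ∈ T, ¬ q.asIdeal ≤ P'.asIdeal)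
    (hTinc : ∀ q ∈ T, ∀ q' ∈ T, q.asIdeal ≤ q'.asIdeal → q = q')
    (x : R) (hx0 : x ≠ 0) (hxP : x ∉ P.asIdeal)
    (hxT : ∀ Q : PrimeSpectrum R, x ∈ Q.asIdeal → Q = P' ∨ Q ∈ T ∨ Q.asIdeal.IsMaximal) :
    (e : ℕ∞) * Ring.ord (R ⧸ P.asIdeal) (Ideal.Quotient.mk P.asIdeal x)
      = Ring.ord (Localization.AtPrime P'.asIdeal)
          (algebraMap R (Localization.AtPrime P'.asIdeal) x)
        + ∑ q ∈ T, Ring.ord (Localization.AtPrime q.asIdeal)
            (algebraMap R (Localization.AtPrime q.asIdeal) x) * wt z' q := by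
  classical
  -- a prime containing `z'` contains `w`
  have hw_of_z' : ∀ Q : PrimeSpectrum R, z' ∈ Q.asIdeal → w ∈ Q.asIdeal := by
    intro Q hQ
    have h1 : w ^ e * ε ∈ Q.asIdeal := hzz ▸ Q.asIdeal.mul_mem_left z hQ
    have h2 : w ^ e ∈ Q.asIdeal := by
      obtain ⟨u, rfl⟩ := hε
      have := Q.asIdeal.mul_mem_right (↑u⁻¹ : R) h1
      rwa [mul_assoc, Units.mul_inv, mul_one] at this
    exact Q.isPrime.mem_of_pow_mem e h2
  have hP'T : P' ∉ T := fun h => hTw P' h hwP'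
  have hrec := reciprocity z' x (mem_nonZeroDivisors_of_ne_zero hz'0)
    (mem_nonZeroDivisors_of_ne_zero hx0) {P} (insert P' T)
    (by intro q hq; rw [Finset.mem_singleton] at hq; rw [hq]; exact hxP)
    (by intro q hq; rw [Finset.mem_singleton] at hq; rw [hq]; exact hPnm)
    (by
      intro q hq q' hq' _
      rw [Finset.mem_singleton] at hq hq'
      rw [hq, hq'])
    (by
      intro Q hQ
      have hle : P.asIdeal ≤ Q.asIdeal := by
        rw [hP, Ideal.span_le]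
        intro y hy
        rcases hy with rfl | hy
        · exact hQ
        · rw [Set.mem_singleton_iff] at hy
          rw [hy]
          exact hw_of_z' Q hQ
      rcases hPdim Q hle with h | h
      · exact Or.inl (by rw [h]; exact Finset.mem_singleton_self P)
      · exact Or.inr h)
    (by
      intro q hq
      rcases Finset.mem_insert.mp hq with h1 | h1
      · rw [h1]; exact hz'P'
      · exact fun h => hTw q h1 (hw_of_z' q h))
    (by
      intro q hq
      rcases Finset.mem_insert.mp hq with h1 | h1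
      · rw [h1]; exact hP'nm
      · exact hTnm q h1)
    (by
      intro q hq q' hq' hle
      rcases Finset.mem_insert.mp hq with h1 | h1
      · rcases Finset.mem_insert.mp hq' with h2 | h2
        · rw [h1, h2]
        · rw [h1] at hle
          exact absurd (hle hwP') (hTw q' h2)
      · rcases Finset.mem_insert.mp hq' with h2 | h2
        · rw [h2] at hle
          exact absurd hle (hTP' q h1)
        · exact hTinc q h1 q' h2 hle)
    (by
      intro Q hQ
      rcases hxT Q hQ with h | h | h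
      · exact Or.inl (by rw [h]; exact Finset.mem_insert_self _ _)
      · exact Or.inl (Finset.mem_insert_of_mem h)
      · exact Or.inr h)
  rw [Finset.sum_singleton, Finset.sum_insert hP'T, heP, hwt', mul_one, wt_eq_ord] at hrec
  exact hrec

/-! ### Discharging the hypotheses in the DVR situation -/

omit [IsNoetherianRing R] in
/-- `ord_P(z') = e` when `R_P` is a domain in which `w` is irreducible and `z` is a unit
(e.g. `R_P` a discrete valuation ring with uniformiser `w`, `z ∉ P`). -/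
theorem ord_eq_of_irreducible (w z z' ε : R) (e : ℕ) (hε : IsUnit ε) (hzz : z * z' = w ^ e * ε)
    (P : PrimeSpectrum R) [IsPrincipalIdealRing (Localization.AtPrime P.asIdeal)]
    (hz : z ∉ P.asIdeal)
    (hw : Irreducible (algebraMap R (Localization.AtPrime P.asIdeal) w)) :
    Ring.ord (Localization.AtPrime P.asIdeal)
      (algebraMap R (Localization.AtPrime P.asIdeal) z') = e := by
  have hzu : IsUnit (algebraMap R (Localization.AtPrime P.asIdeal) z) :=
    IsLocalization.map_units (Localization.AtPrime P.asIdeal)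
      (⟨z, hz⟩ : P.asIdeal.primeCompl)
  have hεu : IsUnit (algebraMap R (Localization.AtPrime P.asIdeal) ε) := hε.map _
  have h1 := congrArg (algebraMap R (Localization.AtPrime P.asIdeal)) hzz
  rw [map_mul, map_mul, map_pow] at h1
  have h2 : Ring.ord (Localization.AtPrime P.asIdeal)
      (algebraMap R (Localization.AtPrime P.asIdeal) z
        * algebraMap R (Localization.AtPrime P.asIdeal) z')
      = Ring.ord (Localization.AtPrime P.asIdeal)
        (algebraMap R (Localization.AtPrime P.asIdeal) z') :=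
    Ring.ord_mul_of_isUnit_left hzu _
  rw [← h2, h1, Ring.ord_mul_of_isUnit_right hεu,
    Ring.ord_pow (mem_nonZeroDivisors_of_ne_zero hw.ne_zero), Ring.ord_of_irreducible hw]
  simp

omit [IsDomain R] [IsNoetherianRing R] in
/-- the weight of a prime `q` with `q + (g)` maximal is `1` -/
theorem wt_eq_one_of_isMaximal (g : R) (q : PrimeSpectrum R)
    (h : (q.asIdeal ⊔ Ideal.span {g}).IsMaximal) : wt g q = 1 :=
  length_quot_of_isMaximal _

/-! ### Natural number and congruence forms -/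

/-- **Abstract edge lemma, length form**, all orders being given as natural numbers. -/
theorem edge_formula_nat (w z z' ε : R) (e : ℕ) (hε : IsUnit ε) (hzz : z * z' = w ^ e * ε)
    (hz'0 : z' ≠ 0) (P P' : PrimeSpectrum R)
    (hP : P.asIdeal = Ideal.span {z', w}) (hwP' : w ∈ P'.asIdeal) (hz'P' : z' ∉ P'.asIdeal)
    (hPnm : ¬ P.asIdeal.IsMaximal) (hP'nm : ¬ P'.asIdeal.IsMaximal)
    (hPdim : ∀ Q : PrimeSpectrum R, P.asIdeal ≤ Q.asIdeal → Q = P ∨ Q.asIdeal.IsMaximal)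
    (heP : Ring.ord (Localization.AtPrime P.asIdeal)
      (algebraMap R (Localization.AtPrime P.asIdeal) z') = e)
    (hwt' : wt z' P' = 1)
    (T : Finset (PrimeSpectrum R)) (hTw : ∀ q ∈ T, w ∉ q.asIdeal)
    (hTnm : ∀ q ∈ T, ¬ q.asIdeal.IsMaximal) (hTP' : ∀ q ∈ T, ¬ q.asIdeal ≤ P'.asIdeal)
    (hTinc : ∀ q ∈ T, ∀ q' ∈ T, q.asIdeal ≤ q'.asIdeal → q = q')
    (m : PrimeSpectrum R → ℕ) (hm : ∀ q ∈ T, wt z' q = m q)
    (x : R) (hx0 : x ≠ 0) (hxP : x ∉ P.asIdeal)
    (hxT : ∀ Q : PrimeSpectrum R, x ∈ Q.asIdeal → Q = P' ∨ Q ∈ T ∨ Q.asIdeal.IsMaximal)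
    (n v' : ℕ) (o : PrimeSpectrum R → ℕ)
    (hn : Ring.ord (R ⧸ P.asIdeal) (Ideal.Quotient.mk P.asIdeal x) = n)
    (hv' : Ring.ord (Localization.AtPrime P'.asIdeal)
      (algebraMap R (Localization.AtPrime P'.asIdeal) x) = v')
    (ho : ∀ q ∈ T, Ring.ord (Localization.AtPrime q.asIdeal)
      (algebraMap R (Localization.AtPrime q.asIdeal) x) = o q) :
    e * n = v' + ∑ q ∈ T, o q * m q := by
  have h := edge_formula w z z' ε e hε hzz hz'0 P P' hP hwP' hz'P' hPnm hP'nm hPdim heP hwt' T hTw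
    hTnm hTP' hTinc x hx0 hxP hxT
  rw [hn, hv', Finset.sum_congr rfl (fun q hq => by rw [ho q hq, hm q hq])] at h
  exact_mod_cast h

/-- **(EDGE)**, congruence form: if the horizontal orders of `x` and `y` agree modulo `p`, then
`e (n(x) - n(y)) ≡ v'(x) - v'(y) mod p`. -/
theorem edge_congr (p : ℕ) (w z z' ε : R) (e : ℕ) (hε : IsUnit ε) (hzz : z * z' = w ^ e * ε)
    (hz'0 : z' ≠ 0) (P P' : PrimeSpectrum R)
    (hP : P.asIdeal = Ideal.span {z', w}) (hwP' : w ∈ P'.asIdeal) (hz'P' : z' ∉ P'.asIdeal)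
    (hPnm : ¬ P.asIdeal.IsMaximal) (hP'nm : ¬ P'.asIdeal.IsMaximal)
    (hPdim : ∀ Q : PrimeSpectrum R, P.asIdeal ≤ Q.asIdeal → Q = P ∨ Q.asIdeal.IsMaximal)
    (heP : Ring.ord (Localization.AtPrime P.asIdeal)
      (algebraMap R (Localization.AtPrime P.asIdeal) z') = e)
    (hwt' : wt z' P' = 1)
    (T : Finset (PrimeSpectrum R)) (hTw : ∀ q ∈ T, w ∉ q.asIdeal)
    (hTnm : ∀ q ∈ T, ¬ q.asIdeal.IsMaximal) (hTP' : ∀ q ∈ T, ¬ q.asIdeal ≤ P'.asIdeal)
    (hTinc : ∀ q ∈ T, ∀ q' ∈ T, q.asIdeal ≤ q'.asIdeal → q = q')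
    (m : PrimeSpectrum R → ℕ) (hm : ∀ q ∈ T, wt z' q = m q)
    (x y : R) (hx0 : x ≠ 0) (hy0 : y ≠ 0) (hxP : x ∉ P.asIdeal) (hyP : y ∉ P.asIdeal)
    (hxT : ∀ Q : PrimeSpectrum R, x ∈ Q.asIdeal → Q = P' ∨ Q ∈ T ∨ Q.asIdeal.IsMaximal)
    (hyT : ∀ Q : PrimeSpectrum R, y ∈ Q.asIdeal → Q = P' ∨ Q ∈ T ∨ Q.asIdeal.IsMaximal)
    (nx vx' ny vy' : ℕ) (ox oy : PrimeSpectrum R → ℕ)
    (hnx : Ring.ord (R ⧸ P.asIdeal) (Ideal.Quotient.mk P.asIdeal x) = nx)
    (hny : Ring.ord (R ⧸ P.asIdeal) (Ideal.Quotient.mk P.asIdeal y) = ny)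
    (hvx' : Ring.ord (Localization.AtPrime P'.asIdeal)
      (algebraMap R (Localization.AtPrime P'.asIdeal) x) = vx')
    (hvy' : Ring.ord (Localization.AtPrime P'.asIdeal)
      (algebraMap R (Localization.AtPrime P'.asIdeal) y) = vy')
    (hox : ∀ q ∈ T, Ring.ord (Localization.AtPrime q.asIdeal)
      (algebraMap R (Localization.AtPrime q.asIdeal) x) = ox q)
    (hoy : ∀ q ∈ T, Ring.ord (Localization.AtPrime q.asIdeal)
      (algebraMap R (Localization.AtPrime q.asIdeal) y) = oy q)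
    (hdiv : ∀ q ∈ T, (p : ℤ) ∣ (ox q : ℤ) - (oy q : ℤ)) :
    (p : ℤ) ∣ (e : ℤ) * ((nx : ℤ) - (ny : ℤ)) - ((vx' : ℤ) - (vy' : ℤ)) := by
  have hx := edge_formula_nat w z z' ε e hε hzz hz'0 P P' hP hwP' hz'P' hPnm hP'nm hPdim heP hwt' T
    hTw hTnm hTP' hTinc m hm x hx0 hxP hxT nx vx' ox hnx hvx' hox
  have hy := edge_formula_nat w z z' ε e hε hzz hz'0 P P' hP hwP' hz'P' hPnm hP'nm hPdim heP hwt' T
    hTw hTnm hTP' hTinc m hm y hy0 hyP hyT ny vy' oy hny hvy' hoy
  have hxz : (e : ℤ) * nx = vx' + ∑ q ∈ T, (ox q : ℤ) * m q := by exact_mod_cast hx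
  have hyz : (e : ℤ) * ny = vy' + ∑ q ∈ T, (oy q : ℤ) * m q := by exact_mod_cast hy
  have hkey : (e : ℤ) * ((nx : ℤ) - (ny : ℤ)) - ((vx' : ℤ) - (vy' : ℤ))
      = ∑ q ∈ T, ((ox q : ℤ) - (oy q : ℤ)) * m q := by
    rw [mul_sub, hxz, hyz, ← sub_eq_zero]
    simp only [sub_mul, Finset.sum_sub_distrib]
    ring
  rw [hkey]
  exact Finset.dvd_sum (fun q hq => Dvd.dvd.mul_right (hdiv q hq) _)

end Fermat.Agent.S40x.Chi.Edge
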